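import Fermat.Agent.S17.H920.Bertini

/-!
# S17 / tower H, leaf BERTINI (helper920): the generic member of a pencil is reduced

`K` algebraically closed of characteristic zero, `F` a function field of one variable over `K`.
For `f₁, f₂ ∈ F` nonzero with `f₂ / f₁` non-constant (`∃ P, ord_P f₁ ≠ ord_P f₂`), all but
finitely many members `f₂ - c f₁` of the pencil satisfy, with `b P := min (ord_P f₁) (ord_P f₂)`
(minus the base divisor of the pencil):

* `b P ≤ ord_P (f₂ - c f₁) ≤ b P + 1` for every place `P` (the moving part is reduced);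
* `ord_P (f₂ - c f₁) = b P` for all `P` in a given finite set `S` (the moving part avoids `S`).

In particular there is such a `c` in every infinite subset of `K` (e.g. the image of `ℚ`):
`exists_reduced_member`.
-/

set_option autoImplicit false
set_option linter.unusedSectionVars false
set_option linter.style.haveILetI false

open AlgebraicCurve Polynomial IntermediateField

namespace Fermat.Agent.S17.H920

variable {K F : Type*} [Field K] [Field F] [Algebra K F]

/-- The values of `φ` at the places of a finite set form a finite set. -/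
theorem finite_values_on (φ : F) (S : Set (Place K F)) (hS : S.Finite) :
    {c : K | ∃ P ∈ S, 0 < P.ord (φ - algebraMap K F c)}.Finite := by
  have h : {c : K | ∃ P ∈ S, 0 < P.ord (φ - algebraMap K F c)} =
      ⋃ P ∈ S, {c : K | 0 < P.ord (φ - algebraMap K F c)} := by
    ext c
    simp only [Set.mem_iUnion, Set.mem_ofPred_eq, exists_prop]
  rw [h]
  exact Set.Finite.biUnion hS
    (fun w _ => Set.Subsingleton.finite (fun c hc c' hc' => value_unique w φ hc hc'))

/-- Order of a member of the pencil at a place where `f₁` is the smaller one. -/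
theorem ord_pencil_of_le (P : Place K F) {f₁ f₂ : F} (hf₁ : f₁ ≠ 0) (c : K)
    (hc : f₂ - c • f₁ ≠ 0) :
    P.ord (f₂ - c • f₁) = P.ord f₁ + P.ord (f₂ / f₁ - algebraMap K F c) := by
  have h1 : f₂ - c • f₁ = f₁ * (f₂ / f₁ - algebraMap K F c) := by
    rw [Algebra.smul_def]
    field_simp
  have h2 : f₂ / f₁ - algebraMap K F c ≠ 0 := by
    intro h0
    rw [h0, mul_zero] at h1
    exact hc h1
  rw [h1, P.ord_mul hf₁ h2]

/-- Order of a member of the pencil at a place where `f₂` is strictly smaller. -/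
theorem ord_pencil_of_lt (P : Place K F) {f₁ f₂ : F} (hf₁ : f₁ ≠ 0) (hf₂ : f₂ ≠ 0) (c : K)
    (h : P.ord f₂ < P.ord f₁) : P.ord (f₂ - c • f₁) = P.ord f₂ := by
  rcases eq_or_ne c 0 with rfl | hc
  · rw [zero_smul, sub_zero]
  have hc' : algebraMap K F c ≠ 0 := (map_ne_zero (algebraMap K F)).mpr hc
  have h1 : -(c • f₁) ≠ 0 := by
    rw [Algebra.smul_def]
    exact neg_ne_zero.mpr (mul_ne_zero hc' hf₁)
  have h2 : P.ord (-(c • f₁)) = P.ord f₁ := by
    rw [Fermat.Agent.Lib.RR.ord_neg, Algebra.smul_def, P.ord_mul hc' hf₁,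
      Fermat.Agent.Lib.RR.ord_algebraMap, zero_add]
  rw [sub_eq_add_neg]
  exact Fermat.Agent.Lib.RR.ord_add_eq_of_lt P hf₂ h1 (by rw [h2]; exact h)

/-- A ratio with a zero or pole is transcendental over the constants. -/
theorem transcendental_div_of_ord_ne [IsAlgClosed K] {f₁ f₂ : F} (hf₁ : f₁ ≠ 0) (hf₂ : f₂ ≠ 0)
    (hne : ∃ P : Place K F, P.ord f₁ ≠ P.ord f₂) : Transcendental K (f₂ / f₁) := by
  apply Fermat.Agent.S24.FF.transcendental_of_not_mem_range
  rintro ⟨a, ha⟩
  obtain ⟨P, hP⟩ := hne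
  have h1 : P.ord (f₂ / f₁) = P.ord f₂ - P.ord f₁ := by
    rw [div_eq_mul_inv, P.ord_mul hf₂ (inv_ne_zero hf₁), P.ord_inv]
    ring
  rw [← ha, Fermat.Agent.Lib.RR.ord_algebraMap] at h1
  omega

/-- **BERTINI, pencil form.**  All but finitely many members of a pencil without fixed
component are reduced and avoid a given finite set of places. -/
theorem finite_pencil_bad [IsAlgClosed K] [CharZero K] (j : F) (hj : Transcendental K j)
    [FiniteDimensional K⟮j⟯ F] (f₁ f₂ : F) (hf₁ : f₁ ≠ 0) (hf₂ : f₂ ≠ 0)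
    (hne : ∃ P : Place K F, P.ord f₁ ≠ P.ord f₂) (S : Set (Place K F)) (hS : S.Finite) :
    {c : K | ¬ (f₂ - c • f₁ ≠ 0 ∧
      (∀ P : Place K F, min (P.ord f₁) (P.ord f₂) ≤ P.ord (f₂ - c • f₁) ∧
        P.ord (f₂ - c • f₁) ≤ min (P.ord f₁) (P.ord f₂) + 1) ∧
      (∀ P ∈ S, P.ord (f₂ - c • f₁) = min (P.ord f₁) (P.ord f₂)))}.Finite := by
  have hφ : Transcendental K (f₂ / f₁) := transcendental_div_of_ord_ne hf₁ hf₂ hne
  have hB1 := finite_branch_values j hj (f₂ / f₁) hφ
  have hB2 := finite_values_on (K := K) (f₂ / f₁) S hS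
  refine (hB1.union hB2).subset ?_
  intro c hc
  by_contra hcB
  rw [Set.mem_union, not_or] at hcB
  obtain ⟨hc1, hc2⟩ := hcB
  have hc1' : ∀ P : Place K F, P.ord (f₂ / f₁ - algebraMap K F c) ≤ 1 := by
    intro P
    by_contra h
    exact hc1 ⟨P, by omega⟩
  have hc2' : ∀ P ∈ S, P.ord (f₂ / f₁ - algebraMap K F c) ≤ 0 := by
    intro P hP
    by_contra h
    exact hc2 ⟨P, hP, by omega⟩
  have hφc : f₂ / f₁ - algebraMap K F c ≠ 0 := by
    intro h0
    apply hφ
    rw [sub_eq_zero.mp h0]
    exact isAlgebraic_algebraMap c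
  have hmem : f₂ - c • f₁ ≠ 0 := by
    intro h0
    apply hφc
    rw [Algebra.smul_def] at h0
    have h1 : f₂ / f₁ = algebraMap K F c := by
      rw [div_eq_iff hf₁]
      exact sub_eq_zero.mp h0
    rw [h1, sub_self]
  -- lower bound for `ord (φ - c)` where `φ` is regular
  have hlow : ∀ P : Place K F, P.ord f₁ ≤ P.ord f₂ →
      0 ≤ P.ord (f₂ / f₁ - algebraMap K F c) := by
    intro P hP
    have h1 : P.ord (f₂ / f₁) = P.ord f₂ - P.ord f₁ := by
      rw [div_eq_mul_inv, P.ord_mul hf₂ (inv_ne_zero hf₁), P.ord_inv]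
      ring
    have h2 := Fermat.Agent.Lib.RR.ord_add_of_le P (n := 0) (f := f₂ / f₁)
      (g := -algebraMap K F c) (Or.inr (by omega))
      (Or.inr (by rw [Fermat.Agent.Lib.RR.ord_neg, Fermat.Agent.Lib.RR.ord_algebraMap]))
    rw [← sub_eq_add_neg] at h2
    exact h2.resolve_left hφc
  apply hc
  refine ⟨hmem, ?_, ?_⟩
  · intro P
    rcases le_or_gt (P.ord f₁) (P.ord f₂) with hP | hP
    · rw [min_eq_left hP, ord_pencil_of_le P hf₁ c hmem]
      have := hlow P hP
      have := hc1' P
      constructor <;> omega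
    · rw [min_eq_right hP.le, ord_pencil_of_lt P hf₁ hf₂ c hP]
      constructor <;> omega
  · intro P hPS
    rcases le_or_gt (P.ord f₁) (P.ord f₂) with hP | hP
    · rw [min_eq_left hP, ord_pencil_of_le P hf₁ c hmem]
      have := hlow P hP
      have := hc2' P hPS
      omega
    · rw [min_eq_right hP.le, ord_pencil_of_lt P hf₁ hf₂ c hP]

/-- **BERTINI, existence form.**  Every infinite set of parameters (for instance the rational
numbers) contains a `c` such that the member `f₂ - c f₁` of the pencil is reduced and avoids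
the finite set `S`. -/
theorem exists_reduced_member [IsAlgClosed K] [CharZero K] (j : F) (hj : Transcendental K j)
    [FiniteDimensional K⟮j⟯ F] (f₁ f₂ : F) (hf₁ : f₁ ≠ 0) (hf₂ : f₂ ≠ 0)
    (hne : ∃ P : Place K F, P.ord f₁ ≠ P.ord f₂) (S : Set (Place K F)) (hS : S.Finite)
    (A : Set K) (hA : A.Infinite) :
    ∃ c ∈ A, f₂ - c • f₁ ≠ 0 ∧
      (∀ P : Place K F, min (P.ord f₁) (P.ord f₂) ≤ P.ord (f₂ - c • f₁) ∧
        P.ord (f₂ - c • f₁) ≤ min (P.ord f₁) (P.ord f₂) + 1) ∧
      (∀ P ∈ S, P.ord (f₂ - c • f₁) = min (P.ord f₁) (P.ord f₂)) := by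
  obtain ⟨c, hcA, hc⟩ := hA.exists_notMem_finite (finite_pencil_bad j hj f₁ f₂ hf₁ hf₂ hne S hS)
  refine ⟨c, hcA, ?_⟩
  by_contra h
  exact hc h

/-- The rational parameters form an infinite set. -/
theorem infinite_range_algebraMap_rat [CharZero K] :
    (Set.range (algebraMap ℚ K)).Infinite :=
  Set.infinite_range_of_injective (algebraMap ℚ K).injective

end Fermat.Agent.S17.H920
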