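import Fermat.Agent.S17.H917.Mov
import Fermat.Agent.S17.H920.BertiniPencil

/-!
# S17 / tower H, geometric layer: the generic rational member is reduced (G-MOV1, abstract form)

Setting of BASE-2 (helper680) and RAT-AVOID (helper917): `F = ℚ̄ · F₀ ⊆ ℚ̄((q))`.

`exists_fixed_reduced_member`: if `D` is a Galois-invariant divisor of degree `≥ 2g` and `T` a
finite set of places, there is a Galois-FIXED `f ∈ L(D)`, `f ≠ 0`, such that the member
`E = D + div f` of `|D|` is effective, REDUCED (`E v ≤ 1` for all `v`) and avoids `T`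
(`E v = 0` for `v ∈ T`); `E` is Galois-invariant.

Proof: RAT-AVOID twice gives a fixed pencil `f₁, f₂` without base points whose member `f₁`
avoids `T`; BERTINI (`exists_reduced_member`) gives a rational `c` with `f₂ - c f₁` reduced and
avoiding `T`.
-/

set_option autoImplicit false

noncomputable section

open AlgebraicCurve ModularCurve

namespace Fermat.Agent.S17.H920

open Fermat.Agent.Lib.RR Fermat.Agent.S17.H680 Fermat.Agent.S17.H77 Fermat.Agent.S17.H917

variable {F₀ : IntermediateField ℚ (LaurentSeries ℚ)} [FF1 Qb (laurentBaseChange Qb F₀)]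

/-- **G-MOV1, abstract form.**  An invariant divisor of degree `≥ 2g` has a rational member
which is reduced and avoids a given finite set of places. -/
theorem exists_fixed_reduced_member {D : Divisor Qb (laurentBaseChange Qb F₀)}
    (hD : IsInvariant F₀ D)
    (hdeg : 2 * (genusFF Qb (laurentBaseChange Qb F₀) : ℤ) ≤ Divisor.degree D)
    (T : Finset (Place Qb (laurentBaseChange Qb F₀))) :
    ∃ (f : laurentBaseChange Qb F₀) (hf : f ≠ 0), f ∈ riemannRochSpace D ∧ IsFixed F₀ f ∧
      (∀ v, 0 ≤ (D + divOf (K := Qb) f hf) v ∧ (D + divOf (K := Qb) f hf) v ≤ 1) ∧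
      ∀ v ∈ T, (D + divOf (K := Qb) f hf) v = 0 := by
  classical
  obtain ⟨f₁, hf₁L, hf₁fix, hf₁, hf₁T⟩ := exists_fixed_mem_L_forall_ord_eq hD hdeg T
  have hf₁ord : ∀ v : Place Qb (laurentBaseChange Qb F₀), -D v ≤ v.ord f₁ := fun v =>
    ((mem_L_iff.mp hf₁L) v).resolve_left hf₁
  set Z₁ : Finset (Place Qb (laurentBaseChange Qb F₀)) := (D + divOf f₁ hf₁).support with hZ₁
  have hZ₁mem : ∀ v, v ∉ Z₁ → v.ord f₁ = -D v := by
    intro v hv
    rw [hZ₁, Finsupp.mem_support_iff, not_not, Finsupp.add_apply, divOf_apply] at hv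
    omega
  obtain ⟨f₂, hf₂L, hf₂fix, hf₂, hf₂T⟩ := exists_fixed_mem_L_forall_ord_eq hD hdeg (T ∪ Z₁)
  have hf₂ord : ∀ v : Place Qb (laurentBaseChange Qb F₀), -D v ≤ v.ord f₂ := fun v =>
    ((mem_L_iff.mp hf₂L) v).resolve_left hf₂
  have hmin : ∀ v : Place Qb (laurentBaseChange Qb F₀),
      min (v.ord f₁) (v.ord f₂) = -D v := by
    intro v
    by_cases hv : v ∈ Z₁
    · have h2 := hf₂T v (Finset.mem_union_right _ hv)
      have h1 := hf₁ord v
      rw [h2]
      exact min_eq_right h1
    · have h1 := hZ₁mem v hv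
      have h2 := hf₂ord v
      rw [h1]
      exact min_eq_left h2
  by_cases hne : ∃ P : Place Qb (laurentBaseChange Qb F₀), P.ord f₁ ≠ P.ord f₂
  · obtain ⟨j, hj, hjfin⟩ := (inferInstance : FF1 Qb (laurentBaseChange Qb F₀)).exists_finite
    have := hjfin
    obtain ⟨c, ⟨q, rfl⟩, hc0, hcred, hcT⟩ := exists_reduced_member j hj f₁ f₂ hf₁ hf₂ hne
      (T : Set (Place Qb (laurentBaseChange Qb F₀))) T.finite_toSet
      (Set.range (algebraMap ℚ Qb)) infinite_range_algebraMap_rat
    have hmemfix : f₂ - algebraMap ℚ Qb q • f₁ ∈ fixedPart F₀ (riemannRochSpace D) := by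
      rw [algebraMap_smul]
      exact Submodule.sub_mem _ ⟨hf₂L, hf₂fix⟩ (Submodule.smul_mem _ q ⟨hf₁L, hf₁fix⟩)
    refine ⟨f₂ - algebraMap ℚ Qb q • f₁, hc0, hmemfix.1, hmemfix.2, ?_, ?_⟩
    · intro v
      have h := hcred v
      rw [hmin v] at h
      rw [Finsupp.add_apply, divOf_apply]
      constructor <;> omega
    · intro v hv
      have h := hcT v (Finset.mem_coe.mpr hv)
      rw [hmin v] at h
      rw [Finsupp.add_apply, divOf_apply]
      omega
  · -- degenerate case: `D + div f₁ = 0`
    have hall : ∀ v : Place Qb (laurentBaseChange Qb F₀), v.ord f₁ = -D v := by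
      intro v
      have h := hmin v
      have hv : v.ord f₁ = v.ord f₂ := by
        by_contra h'
        exact hne ⟨v, h'⟩
      rw [← hv, min_self] at h
      exact h
    refine ⟨f₁, hf₁, hf₁L, hf₁fix, ?_, ?_⟩
    · intro v
      rw [Finsupp.add_apply, divOf_apply, hall v]
      constructor <;> omega
    · intro v _
      rw [Finsupp.add_apply, divOf_apply, hall v]
      omega

/-- The reduced member of `exists_fixed_reduced_member` is Galois-invariant. -/
theorem isInvariant_add_divOf {D : Divisor Qb (laurentBaseChange Qb F₀)}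
    (hD : IsInvariant F₀ D) {f : laurentBaseChange Qb F₀} (hf : f ≠ 0) (hfix : IsFixed F₀ f) :
    IsInvariant F₀ (D + divOf (K := Qb) f hf) :=
  isInvariant_add hD (isInvariant_divOf hf hfix)

end Fermat.Agent.S17.H920
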