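import Fermat.Agent.S17.H920.BertiniLocal
import Fermat.Agent.S37.Red.H160.RatFibre
import Fermat.Agent.Lib.FF.Principal

/-!
# S17 / tower H, leaf BERTINI (helper920): finitely many branch values

`K` algebraically closed of characteristic zero, `F` a function field of one variable over `K`
(finite over `K(j)` for some transcendental `j`).  For every non-constant `φ ∈ F` the set of
branch values

  `{c : K | ∃ P, 2 ≤ ord_P (φ - c)}`

is finite (`finite_branch_values`).  Pencil form (`finite_pencil_nonreduced`): for `f₁ ≠ 0` and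
`f₂ / f₁` non-constant, only finitely many members `f₂ - c f₁` of the pencil vanish to order
`≥ 2` (relative to the base locus `min (ord f₁) (ord f₂)`) somewhere.

Proof: `F = K(φ)(g)` with `g` a primitive element, `χ` its minimal (= characteristic)
polynomial over `K(φ)`, separable: `a χ + b χ' = 1`.  Outside the finitely many values of `φ` at
the poles of `g` and of the coefficients of `a`, `b`, the certificate reduces modulo the place
`φ = c` of `K(φ)`, so the fibre is unramified (`BertiniLocal`), and `φ - c` is a uniformizer at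
the place `φ = c` of `K(φ)`.
-/

set_option autoImplicit false
set_option linter.unusedSectionVars false
set_option linter.style.haveILetI false

open AlgebraicCurve Polynomial IntermediateField

namespace Fermat.Agent.S17.H920

variable {K F : Type*} [Field K] [Field F] [Algebra K F]

/-- A place sees at most one value of a function. -/
theorem value_unique (w : Place K F) (t : F) {c c' : K}
    (h : 0 < w.ord (t - algebraMap K F c)) (h' : 0 < w.ord (t - algebraMap K F c')) :
    c = c' := by
  by_contra hne
  have h1 : (t - algebraMap K F c') + -(t - algebraMap K F c) = algebraMap K F (c - c') := by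
    rw [map_sub]; ring
  have h2 := Fermat.Agent.Lib.RR.ord_add_of_le w (n := 1) (f := t - algebraMap K F c')
    (g := -(t - algebraMap K F c)) (Or.inr (by omega))
    (Or.inr (by rw [Fermat.Agent.Lib.RR.ord_neg]; omega))
  rw [h1] at h2
  rcases h2 with h2 | h2
  · exact hne (sub_eq_zero.mp ((map_eq_zero (algebraMap K F)).mp h2))
  · rw [Fermat.Agent.Lib.RR.ord_algebraMap] at h2
    omega

/-- **BERTINI, coordinate form.**  If `F` is finite over `K(t)`, then `t` has finitely many
branch values. -/
theorem finite_branch_values_gen [IsAlgClosed K] [CharZero K] {t : F}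
    (ht : Transcendental K t) [FiniteDimensional K⟮t⟯ F] :
    {c : K | ∃ P : Place K F, 2 ≤ P.ord (t - algebraMap K F c)}.Finite := by
  classical
  haveI : CharZero K⟮t⟯ := charZero_of_injective_algebraMap (algebraMap K K⟮t⟯).injective
  haveI : Algebra.IsSeparable K⟮t⟯ F := inferInstance
  let pb := Field.powerBasisOfFiniteOfSeparable K⟮t⟯ F
  set g : F := pb.gen with hg_def
  have hχ : (LinearMap.mulLeft K⟮t⟯ g).charpoly = minpoly K⟮t⟯ g := by
    rw [← charpoly_leftMulMatrix pb, Algebra.leftMulMatrix_apply, LinearMap.charpoly_toMatrix]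
    rfl
  have hsep : (LinearMap.mulLeft K⟮t⟯ g).charpoly.Separable := by
    rw [hχ]
    exact Algebra.IsSeparable.isSeparable K⟮t⟯ g
  obtain ⟨a, b, hab⟩ := hsep
  -- the bad places
  have hfin : ∀ f : F, {w : Place K F | w.ord f ≠ 0}.Finite :=
    fun f => Fermat.Agent.Lib.FF.finite_setOf_ord_ne_zero' t ht f
  set W : Set (Place K F) := ({w | w.ord g ≠ 0} ∪
      (⋃ i ∈ a.support, {w | w.ord (algebraMap K⟮t⟯ F (a.coeff i)) ≠ 0})) ∪
      (⋃ i ∈ b.support, {w | w.ord (algebraMap K⟮t⟯ F (b.coeff i)) ≠ 0}) with hW
  have hWfin : W.Finite := by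
    refine Set.Finite.union (Set.Finite.union (hfin g) ?_) ?_
    · exact Set.Finite.biUnion a.support.finite_toSet (fun i _ => hfin _)
    · exact Set.Finite.biUnion b.support.finite_toSet (fun i _ => hfin _)
  have hBfin : (⋃ w ∈ W, {c : K | 0 < w.ord (t - algebraMap K F c)}).Finite := by
    refine Set.Finite.biUnion hWfin (fun w _ => Set.Subsingleton.finite ?_)
    intro c hc c' hc'
    exact value_unique w t hc hc'
  refine hBfin.subset ?_
  rintro c ⟨w, hw⟩
  by_contra hcB
  have hnotW : ∀ w' : Place K F, 0 < w'.ord (t - algebraMap K F c) → w' ∉ W := by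
    intro w' hw' hmem
    apply hcB
    simp only [Set.mem_iUnion, Set.mem_ofPred_eq]
    exact ⟨w', hmem, hw'⟩
  have hdeg : ∀ w : Place K F, w.deg = 1 := fun w => Fermat.Agent.S24.FF.deg_eq_one w ht
  set v := w.restrict K⟮t⟯ with hv_def
  have hv : v.deg = 1 := Fermat.Agent.Lib.FF398.deg_restrict_eq_one hdeg w
  have hwpos : 0 < w.ord (t - algebraMap K F c) := by omega
  have hvpos : 0 < v.ord (AdjoinSimple.gen K t - algebraMap K K⟮t⟯ c) :=
    (Fermat.Agent.S37.Red.H160.ord_restrict_gen_sub_pos_iff w c).mpr hwpos
  have hfib : ∀ w' : Place K F, w'.restrict K⟮t⟯ = v → w' ∉ W := by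
    intro w' hw'
    apply hnotW
    rw [← Fermat.Agent.S37.Red.H160.ord_restrict_gen_sub_pos_iff, hw']
    exact hvpos
  have hWg : ∀ w' : Place K F, w' ∉ W → w'.ord g = 0 := by
    intro w' hw'
    by_contra h
    exact hw' (Or.inl (Or.inl h))
  have hWa : ∀ w' : Place K F, w' ∉ W → ∀ i, w'.ord (algebraMap K⟮t⟯ F (a.coeff i)) = 0 := by
    intro w' hw' i
    by_contra h
    apply hw'
    refine Or.inl (Or.inr ?_)
    simp only [Set.mem_iUnion, Set.mem_ofPred_eq]
    refine ⟨i, ?_, h⟩
    rw [Polynomial.mem_support_iff]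
    intro h0
    rw [h0, map_zero, w'.ord_zero] at h
    exact h rfl
  have hWb : ∀ w' : Place K F, w' ∉ W → ∀ i, w'.ord (algebraMap K⟮t⟯ F (b.coeff i)) = 0 := by
    intro w' hw' i
    by_contra h
    apply hw'
    refine Or.inr ?_
    simp only [Set.mem_iUnion, Set.mem_ofPred_eq]
    refine ⟨i, ?_, h⟩
    rw [Polynomial.mem_support_iff]
    intro h0
    rw [h0, map_zero, w'.ord_zero] at h
    exact h rfl
  have hwW : w ∉ W := hfib w rfl
  have he : w.ramificationIndex K⟮t⟯ = 1 := by
    refine ramificationIndex_eq_one_of_cert v hv hdeg g ?_ a b hab ?_ ?_ w rfl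
    · intro w' hw'
      rw [hWg w' (hfib w' hw')]
    · intro i
      show a.coeff i ∈ (w.restrict K⟮t⟯).toValuationSubring
      rw [Place.restrict, ValuationSubring.mem_comap]
      exact Fermat.Agent.Lib.RR.mem_of_ord_nonneg w (hWa w hwW i).ge
    · intro i
      show b.coeff i ∈ (w.restrict K⟮t⟯).toValuationSubring
      rw [Place.restrict, ValuationSubring.mem_comap]
      exact Fermat.Agent.Lib.RR.mem_of_ord_nonneg w (hWb w hwW i).ge
  have h1 := w.ord_restrict (F := K⟮t⟯) (AdjoinSimple.gen K t - algebraMap K K⟮t⟯ c)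
  rw [Fermat.Agent.S37.Red.H160.coe_gen_sub, he,
    Fermat.Agent.S37.Red.H160.ord_gen_sub_eq_one v c ht hvpos] at h1
  rw [h1] at hw
  norm_num at hw

/-- **BERTINI.**  A non-constant function on a curve over an algebraically closed field of
characteristic zero has only finitely many branch values. -/
theorem finite_branch_values [IsAlgClosed K] [CharZero K] (j : F) (hj : Transcendental K j)
    [FiniteDimensional K⟮j⟯ F] (φ : F) (hφ : Transcendental K φ) :
    {c : K | ∃ P : Place K F, 2 ≤ P.ord (φ - algebraMap K F c)}.Finite := by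
  haveI : FiniteDimensional K⟮φ⟯ F :=
    Fermat.Agent.S24.FF.finiteDimensional_adjoin_of_transcendental hj hφ
  exact finite_branch_values_gen hφ

end Fermat.Agent.S17.H920
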