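import Fermat.Agent.S37.H100.FibreCharpoly

/-!
# S17 / tower H, leaf BERTINI (helper920), local part

`F'/F` a finite extension of function fields over an algebraically closed field `K`
(characteristic zero), all places of `F'` of degree one, `v` a place of `F` of degree one.
If `g ∈ F'` is regular at all places over `v` and its characteristic polynomial `χ` over `F`
has a separability certificate `a χ + b χ' = 1` with `a, b ∈ O_v[X]`, then every place over `v`
is unramified.  (Reduction of the certificate modulo `𝔪_v` + the fibre formula
`χ mod 𝔪_v = ∏_{w | v} (X - g(w)) ^ e(w | v)` of helper100.)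
-/

set_option autoImplicit false
set_option linter.unusedSectionVars false
set_option linter.style.haveILetI false

open AlgebraicCurve Polynomial
open Fermat.Agent.Lib.FF398 Fermat.Agent.S37.H100

namespace Fermat.Agent.S17.H920

variable {K F F' : Type*} [Field K] [Field F] [Field F'] [Algebra K F] [Algebra K F']
  [Algebra F F'] [IsScalarTower K F F'] [FiniteDimensional F F'] [CharZero F]

/-- A polynomial over `F` with coefficients in `O_v` is the image of a polynomial over `O_v`. -/
theorem exists_map_eq_of_coeff_mem (v : Place K F) (a : F[X])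
    (ha : ∀ i, a.coeff i ∈ v.toValuationSubring) :
    ∃ A : (v.toValuationSubring)[X], A.map (algebraMap v.toValuationSubring F) = a := by
  have h : a ∈ Polynomial.lifts (algebraMap v.toValuationSubring F) := by
    rw [Polynomial.lifts_iff_coeff_lifts]
    intro n
    exact ⟨⟨a.coeff n, ha n⟩, rfl⟩
  obtain ⟨A, hA⟩ := (Polynomial.mem_lifts a).1 h
  exact ⟨A, hA⟩

/-- A separable polynomial is not divisible by the square of `X - C c`. -/
theorem not_sq_dvd_of_separable {k : Type*} [Field k] {p : k[X]} (hp : p.Separable) (c : k) :
    ¬ (X - C c) ^ 2 ∣ p := by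
  intro h
  have h1 := hp.squarefree (X - C c) (by rwa [← pow_two])
  exact Polynomial.not_isUnit_X_sub_C c h1

/-- **Local Bertini.**  A separability certificate with coefficients in `O_v` for the
characteristic polynomial of an element regular over `v` forces all places over `v` to be
unramified. -/
theorem ramificationIndex_eq_one_of_cert [IsAlgClosed K] (v : Place K F) (hv : v.deg = 1)
    (hdeg' : ∀ w : Place K F', w.deg = 1)
    (g : F') (hg : ∀ w : Place K F', w.restrict F = v → 0 ≤ w.ord g)
    (a b : F[X])
    (hab : a * (LinearMap.mulLeft F g).charpoly +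
      b * derivative (LinearMap.mulLeft F g).charpoly = 1)
    (ha : ∀ i, a.coeff i ∈ v.toValuationSubring) (hb : ∀ i, b.coeff i ∈ v.toValuationSubring)
    (w : Place K F') (hw : w.restrict F = v) : w.ramificationIndex F = 1 := by
  classical
  set s : Finset (Place K F') := (finite_fibre (F' := F') v).toFinset with hs_def
  have hs : ∀ w : Place K F', w ∈ s ↔ w.restrict F = v := by
    intro w
    rw [hs_def, Set.Finite.mem_toFinset]
    rfl
  -- the values of `g` at the places over `v`
  let aval : Place K F' → K := fun w =>
    if h : 0 ≤ w.ord g then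
      evPlace w (hdeg' w) ⟨g, Fermat.Agent.Lib.RR.mem_of_ord_nonneg w h⟩
    else 0
  have haval : ∀ w ∈ s, (g - algebraMap K F' (aval w) = 0 ∨
      0 < w.ord (g - algebraMap K F' (aval w))) := by
    intro w hw
    have h0 : 0 ≤ w.ord g := hg w ((hs w).1 hw)
    have h1 := sub_algebraMap_evPlace_mem w (hdeg' w)
      ⟨g, Fermat.Agent.Lib.RR.mem_of_ord_nonneg w h0⟩
    rw [Fermat.Agent.Lib.RR.mem_maximalIdeal_iff] at h1
    simp only [aval, dif_pos h0]
    exact h1
  obtain ⟨P, -, hP1, hP2⟩ := fibre_charpoly v hv hdeg' s hs g aval haval
  obtain ⟨A, hA⟩ := exists_map_eq_of_coeff_mem v a ha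
  obtain ⟨B, hB⟩ := exists_map_eq_of_coeff_mem v b hb
  have hinj : Function.Injective (algebraMap v.toValuationSubring F) :=
    fun x y h => Subtype.ext h
  have hcert : A * P + B * derivative P = 1 := by
    apply Polynomial.map_injective _ hinj
    rw [Polynomial.map_add, Polynomial.map_mul, Polynomial.map_mul, ← Polynomial.derivative_map,
      hA, hB, hP1, Polynomial.map_one]
    exact hab
  have hsep : (P.map (evPlace v hv)).Separable := by
    refine ⟨A.map (evPlace v hv), B.map (evPlace v hv), ?_⟩
    rw [Polynomial.derivative_map, ← Polynomial.map_mul, ← Polynomial.map_mul,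
      ← Polynomial.map_add, hcert, Polynomial.map_one]
  rw [hP2] at hsep
  have hpos : 0 < w.ramificationIndex F := w.ramificationIndex_pos (F := F)
  by_contra hne
  have h2 : 2 ≤ w.ramificationIndex F := by omega
  have hwmem : w ∈ s := (hs w).2 hw
  apply not_sq_dvd_of_separable hsep (aval w)
  refine Dvd.dvd.trans (pow_dvd_pow _ h2) ?_
  exact Finset.dvd_prod_of_mem (fun w => (X - C (aval w)) ^ w.ramificationIndex F) hwmem

end Fermat.Agent.S17.H920
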